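import Fermat.Agent.ECFormal.PlaceVal
import Mathlib.RingTheory.RootsOfUnity.PrimitiveRoots
import Mathlib.RingTheory.RootsOfUnity.AlgebraicallyClosed

/-!
# `p`-th roots of unity at a place over `p`

* distinct roots differ by more than `p²`;
* an element whose `p`-th power is within `p³` of `1` is within `p²` of a root.
-/

set_option autoImplicit false

noncomputable section

namespace Fermat.Agent.ECFormal

open Fermat.Agent.Galois (Qbar)

variable {A : ValuationSubring Qbar} {p : ℕ}

theorem valuation_rootOfUnity (hp : p.Prime) {z : Qbar} (hz : z ^ p = 1) : A.valuation z = 1 := by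
  have h : A.valuation z ^ p = 1 := by rw [← map_pow, hz, map_one]
  exact (pow_eq_one_iff.mp h).resolve_right hp.ne_zero

theorem sq_valuation_lt_sub_root (hA : A.LiesOverPrime p) (hp : p.Prime) {z z' : Qbar}
    (hz : z ^ p = 1) (hz' : z' ^ p = 1) (hne : z ≠ z') :
    A.valuation (p : Qbar) ^ 2 < A.valuation (z - z') := by
  have := Fact.mk hp
  have hlt := valuation_natPrime_lt_one hA
  have h0 : 0 < A.valuation (p : Qbar) := zero_lt_iff.mpr (valuation_natPrime_ne_zero hp A)
  refine lt_of_lt_of_le (by rw [sq]; exact mul_lt_of_lt_one_left h0 hlt) ?_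
  have hz'0 : z' ≠ 0 := fun h => by simp [h, hp.ne_zero] at hz'
  have hf : (z / z') ^ p = 1 := by rw [div_pow, hz, hz', div_one]
  have hprim : IsPrimitiveRoot (z / z') p := by
    rw [IsPrimitiveRoot.iff_orderOf]
    exact orderOf_eq_prime hf fun h => hne (by rwa [div_eq_one_iff_eq hz'0] at h)
  obtain ⟨q, hq⟩ : ∃ q, p = q + 1 := ⟨p - 1, by have := hp.pos; omega⟩
  rw [hq] at hprim
  have hprod := hprim.prod_one_sub_pow_eq_order
  have hsub : A.valuation (z - z') = A.valuation (1 - z / z') := by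
    rw [one_sub_div hz'0, map_div₀, valuation_rootOfUnity hp hz', div_one, Valuation.map_sub_swap]
  rw [hsub, hq, Nat.cast_add, Nat.cast_one, ← hprod, map_prod]
  have hle : ∀ k ∈ Finset.range q, A.valuation (1 - (z / z') ^ (k + 1)) ≤ 1 := fun k _ =>
    A.valuation.map_sub_le (map_one _).le
      (by rw [map_pow, valuation_rootOfUnity hp hf, one_pow])
  have hq0 : 0 ∈ Finset.range q := Finset.mem_range.mpr (by have := hp.two_le; omega)
  rw [← Finset.mul_prod_erase _ _ hq0]
  refine (mul_le_of_le_one_right' (Finset.prod_le_one' fun k hk =>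
    hle k (Finset.mem_of_mem_erase hk))).trans ?_
  rw [pow_one]

theorem rootOfUnity_eq_of_close (hA : A.LiesOverPrime p) (hp : p.Prime) {z z' e : Qbar}
    (hz : z ^ p = 1) (hz' : z' ^ p = 1)
    (h : A.valuation (e - z) ≤ A.valuation (p : Qbar) ^ 2)
    (h' : A.valuation (e - z') ≤ A.valuation (p : Qbar) ^ 2) : z = z' := by
  by_contra hne
  refine (sq_valuation_lt_sub_root hA hp hz hz' hne).not_ge ?_
  rw [show z - z' = (e - z') - (e - z) by ring]
  exact A.valuation.map_sub_le h' h

/-- An approximate `p`-th root of `1` is close to a root of unity. -/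
theorem exists_rootOfUnity_close (hp : p.Prime) {e : Qbar}
    (h : A.valuation (e ^ p - 1) ≤ A.valuation (p : Qbar) ^ 3) :
    ∃ z : Qbar, z ^ p = 1 ∧ A.valuation (e - z) ≤ A.valuation (p : Qbar) ^ 2 := by
  have := NeZero.mk hp.ne_zero
  obtain ⟨ζ, hζ⟩ := HasEnoughRootsOfUnity.exists_primitiveRoot Qbar p
  obtain ⟨z, hz, hmin⟩ := Finset.exists_min_image (Polynomial.nthRootsFinset p (1 : Qbar))
    (fun z => A.valuation (e - z)) ⟨1, Polynomial.one_mem_nthRootsFinset hp.pos⟩
  rw [Polynomial.mem_nthRootsFinset hp.pos] at hz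
  refine ⟨z, hz, ?_⟩
  have hvz := valuation_rootOfUnity (A := A) hp hz
  have hz0 : z ≠ 0 := fun h0 => by simp [h0] at hvz
  -- shift to `f = e / z`, whose nearest root is `1`
  set f := e / z with hf
  have hvf : A.valuation (f - 1) = A.valuation (e - z) := by
    rw [hf, div_sub_one hz0, map_div₀, hvz, div_one]
  have hfp : f ^ p - 1 = e ^ p - 1 := by rw [hf, div_pow, hz, div_one]
  obtain ⟨q, hq⟩ : ∃ q, p = q + 1 := ⟨p - 1, by have := hp.pos; omega⟩
  have hprod : f ^ p - 1 = (f - 1) * ∏ k ∈ Finset.range q, (f - ζ ^ (k + 1)) := by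
    have h1 := congrArg (Polynomial.eval f) (Polynomial.X_pow_sub_one_eq_prod hp.pos hζ)
    rw [Polynomial.eval_sub, Polynomial.eval_pow, Polynomial.eval_X, Polynomial.eval_one,
      Polynomial.eval_prod] at h1
    rw [h1, Polynomial.nthRootsFinset, Finset.prod_eq_multiset_prod, Multiset.toFinset_val,
      Multiset.dedup_eq_self.mpr (hζ.nthRoots_one_nodup), hζ.nthRoots_eq (one_pow p),
      Multiset.map_map, ← Finset.range_val, ← Finset.prod_eq_multiset_prod, hq,
      Finset.prod_range_succ']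
    simp [mul_comm]
  have hge : ∀ k ∈ Finset.range q,
      A.valuation (1 - ζ ^ (k + 1)) ≤ A.valuation (f - ζ ^ (k + 1)) := fun k _ => by
    have hr : (ζ ^ (k + 1) * z) ^ p = 1 := by
      rw [mul_pow, pow_right_comm, hζ.pow_eq_one, one_pow, one_mul, hz]
    have h1 := hmin _ (((Polynomial.mem_nthRootsFinset hp.pos 1).mpr hr))
    rw [show e - ζ ^ (k + 1) * z = (f - ζ ^ (k + 1)) * z by
      rw [hf]; field_simp, map_mul, hvz, mul_one, ← hvf] at h1
    rw [show (1 : Qbar) - ζ ^ (k + 1) = (f - ζ ^ (k + 1)) - (f - 1) by ring]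
    exact A.valuation.map_sub_le le_rfl h1
  have hmul : A.valuation (e - z) * A.valuation (p : Qbar) ≤ A.valuation (p : Qbar) ^ 3 := by
    refine le_trans ?_ h
    rw [← hfp, hprod, map_mul, map_prod, ← hvf]
    refine mul_le_mul' le_rfl ?_
    have hprim : IsPrimitiveRoot ζ (q + 1) := hq ▸ hζ
    rw [hq, Nat.cast_add, Nat.cast_one, ← hprim.prod_one_sub_pow_eq_order, map_prod]
    exact Finset.prod_le_prod' hge
  rw [pow_succ] at hmul
  exact le_of_mul_le_mul_right hmul (zero_lt_iff.mpr (valuation_natPrime_ne_zero hp A))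

end Fermat.Agent.ECFormal
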