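import Fermat.Agent.ECLocal.Tate
import Fermat.Agent.ECLocal.Main

/-!
# The multiplicative parameter on the kernel of reduction of `y² + xy = x³ + a`

`torus P = y / (y + x)`:
* it is a homomorphism on the kernel of reduction modulo `a`;
* translation by a kernel point `Q` multiplies the abscissa of a singularly reduced point by
  `torus Q`, up to a small error.
-/

set_option autoImplicit false

noncomputable section

universe v

namespace Fermat.Agent.ECFormal

open WeierstrassCurve
open Fermat.Agent.ECLocal (InKernel TateForm)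

variable {K : Type v} [Field K] {A : ValuationSubring K} {V : WeierstrassCurve K}

/-- The multiplicative parameter of a point. -/
def torus : V.toAffine.Point → K
  | .zero => 1
  | .some x y _ => y / (y + x)

/-- The abscissa of a point (`0` at the origin). -/
def absc : V.toAffine.Point → K
  | .zero => 0
  | .some x _ _ => x

theorem torus_zero : torus (0 : V.toAffine.Point) = 1 := rfl

theorem torus_some {x y : K} (h : V.toAffine.Nonsingular x y) :
    torus (Affine.Point.some x y h) = y / (y + x) := rfl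

/-- The valuations of the coordinates of a kernel point. -/
theorem kernel_facts (hT : TateForm A V) {x y : K} (he : V.toAffine.Equation x y) (hx : x ∉ A) :
    1 < A.valuation x ∧ A.valuation x < A.valuation y ∧
      A.valuation y ^ 2 = A.valuation x ^ 3 ∧ A.valuation (y + x) = A.valuation y := by
  have h1 : 1 < A.valuation x := not_le.mp fun h => hx ((A.valuation_le_one_iff x).mp h)
  have he' := (hT.equation_iff x y).1 he
  have hR : A.valuation (x ^ 3 + V.a₆) = A.valuation x ^ 3 := by
    rw [A.valuation.map_add_eq_of_lt_left, map_pow]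
    rw [map_pow]
    exact hT.a₆_lt.trans_le (one_le_pow_of_one_le' h1.le 3)
  have hxy : A.valuation x < A.valuation y := by
    by_contra hle
    rw [not_lt] at hle
    have h : A.valuation x ^ 3 ≤ A.valuation x ^ 2 := by
      rw [← hR, ← he', map_mul, sq]
      exact mul_le_mul' hle ((A.valuation.map_add y x).trans (max_le hle le_rfl))
    exact absurd h (not_le.mpr (pow_lt_pow_right₀ h1 (by norm_num)))
  have hyx : A.valuation (y + x) = A.valuation y := A.valuation.map_add_eq_of_lt_left hxy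
  exact ⟨h1, hxy, by rw [← hR, ← he', map_mul, hyx, sq], hyx⟩

theorem valuation_torus (hT : TateForm A V) {x y : K} (h : V.toAffine.Nonsingular x y)
    (hx : x ∉ A) : A.valuation (torus (Affine.Point.some x y h)) = 1 ∧
      A.valuation (torus (Affine.Point.some x y h) - 1) ^ 2 * A.valuation x = 1 := by
  obtain ⟨h1, hxy, hsq, hyx⟩ := kernel_facts hT h.1 hx
  have hx0 : A.valuation x ≠ 0 := (zero_lt_one.trans h1).ne'
  have hy0 : A.valuation y ≠ 0 := ((zero_lt_one.trans h1).trans hxy).ne'
  refine ⟨by rw [torus_some, map_div₀, hyx, div_self hy0], ?_⟩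
  have hne : y + x ≠ 0 := fun h0 => hy0 (by rw [← hyx, h0, map_zero])
  rw [torus_some, div_sub_one hne, sub_add_cancel_left, map_div₀, Valuation.map_neg, hyx, div_pow,
    hsq, div_mul_eq_mul_div, ← pow_succ, div_self (pow_ne_zero 3 hx0)]

theorem valuation_torus_of_inKernel (hT : TateForm A V) {P : V.toAffine.Point}
    (hP : InKernel A P) : A.valuation (torus P) = 1 := by
  match P, hP with
  | .zero, _ => exact map_one _
  | .some x y h, hx => exact (valuation_torus hT h hx).1

section Add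

variable [DecidableEq K]

omit [DecidableEq K] in
theorem torus_neg (hT : TateForm A V) (P : V.toAffine.Point) : torus (-P) = (torus P)⁻¹ := by
  match P with
  | .zero => exact inv_one.symm
  | .some x y h =>
    rw [Affine.Point.neg_some, torus_some, torus_some, hT.negY_eq, inv_div,
      show -(y + x) + x = -y by ring, neg_div_neg_eq]

/-- Vieta for the line through two points. -/
theorem line_vieta (hT : TateForm A V) {x₁ x₂ y₁ y₂ : K} (h₁ : V.toAffine.Equation x₁ y₁)
    (h₂ : V.toAffine.Equation x₂ y₂) (hxy : ¬(x₁ = x₂ ∧ y₁ = V.toAffine.negY x₂ y₂)) :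
    let l := V.toAffine.slope x₁ x₂ y₁ y₂
    let x₃ := V.toAffine.addX x₁ x₂ l
    let c := y₁ - l * x₁
    y₂ = l * x₂ + c ∧ x₁ + x₂ + x₃ = l ^ 2 + l ∧ x₁ * x₂ * x₃ = c ^ 2 - V.a₆ ∧
      x₁ * x₂ + x₁ * x₃ + x₂ * x₃ = -((2 * l + 1) * c) := by
  intro l x₃ c
  have h := Affine.addPolynomial_slope h₁ h₂ hxy
  rw [Affine.addPolynomial_eq, neg_inj, Cubic.prod_X_sub_C_eq, Cubic.toPoly_injective,
    Cubic.mk.injEq, hT.a₁_eq, hT.a₂_eq, hT.a₃_eq, hT.a₄_eq] at h
  obtain ⟨-, hb, hc, hd⟩ := h
  refine ⟨?_, ?_, ?_, ?_⟩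
  · by_cases hx : x₁ = x₂
    · subst hx
      have hy : y₁ = y₂ := by
        rcases Affine.Y_eq_of_X_eq h₁ h₂ rfl with h | h
        · exact h
        · exact absurd ⟨rfl, h⟩ hxy
      rw [← hy]
      simp only [c]
      ring
    · have hne : x₁ - x₂ ≠ 0 := sub_ne_zero.mpr hx
      simp only [c, l, Affine.slope_of_X_ne hx]
      field_simp
      ring
  · linear_combination hb
  · linear_combination hd
  · linear_combination -hc

/-- The parameter is a homomorphism on the kernel of reduction modulo `a`. -/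
theorem valuation_torus_add_sub_le (hT : TateForm A V) {P Q : V.toAffine.Point}
    (hP : InKernel A P) (hQ : InKernel A Q) :
    A.valuation (torus (P + Q) - torus P * torus Q) ≤ A.valuation V.a₆ := by
  match P, hP with
  | .zero, _ => simp [← Affine.Point.zero_def, torus_zero]
  | .some x₁ y₁ h₁, hx₁ => ?_
  match Q, hQ with
  | .zero, _ => simp [← Affine.Point.zero_def, torus_zero]
  | .some x₂ y₂ h₂, hx₂ => ?_
  have hP1 := (valuation_torus hT h₁ hx₁).1
  have hP0 : torus (Affine.Point.some x₁ y₁ h₁) ≠ 0 := fun h0 => by simp [h0] at hP1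
  by_cases hxy : x₁ = x₂ ∧ y₁ = V.toAffine.negY x₂ y₂
  · rw [Affine.Point.add_of_Y_eq hxy.1 hxy.2, torus_zero,
      show (Affine.Point.some x₂ y₂ h₂ : V.toAffine.Point) = -Affine.Point.some x₁ y₁ h₁ by
        obtain ⟨rfl, rfl⟩ := hxy
        rw [Affine.Point.neg_some]; simp only [Affine.negY_negY],
      torus_neg hT, mul_inv_cancel₀ hP0, sub_self, map_zero]
    exact zero_le
  obtain ⟨hy₂, hsum, hprod, hpair⟩ := line_vieta hT h₁.1 h₂.1 hxy
  have hadd : InKernel A (Affine.Point.some x₁ y₁ h₁ + Affine.Point.some x₂ y₂ h₂) :=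
    ECLocal.InKernel.add hT.integralAt hx₁ hx₂
  rw [Affine.Point.add_some hxy] at hadd ⊢
  set l := V.toAffine.slope x₁ x₂ y₁ y₂
  set x₃ := V.toAffine.addX x₁ x₂ l with hx₃
  set c := y₁ - l * x₁ with hc
  have hy₁ : y₁ = l * x₁ + c := by rw [hc]; ring
  have hy₃ : V.toAffine.addY x₁ x₂ y₁ l = -((l * x₃ + c) + x₃) := by
    rw [Affine.addY, hT.negY_eq, Affine.negAddY, ← hx₃, hc]; ring
  change A.valuation (V.toAffine.addY x₁ x₂ y₁ l / (V.toAffine.addY x₁ x₂ y₁ l + x₃) -
    y₁ / (y₁ + x₁) * (y₂ / (y₂ + x₂))) ≤ _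
  rw [hy₃]
  obtain ⟨k1, -, -, -⟩ := kernel_facts hT h₁.1 hx₁
  obtain ⟨k2, -, -, -⟩ := kernel_facts hT h₂.1 hx₂
  have k3 : 1 < A.valuation x₃ := not_le.mp fun h => hadd ((A.valuation_le_one_iff _).mp h)
  -- the line is `s = μ t + ν` with integral `μ`
  have hc2 : A.valuation c ^ 2 = A.valuation x₁ * A.valuation x₂ * A.valuation x₃ := by
    have h12 : 1 < A.valuation (x₁ * x₂ * x₃) := by
      rw [map_mul, map_mul]; exact one_lt_mul'' (one_lt_mul'' k1 k2) k3
    rw [← map_pow, show c ^ 2 = x₁ * x₂ * x₃ + V.a₆ by linear_combination -hprod,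
      A.valuation.map_add_eq_of_lt_left (hT.a₆_lt.trans h12), map_mul, map_mul]
  have hc1 : 1 < A.valuation c := by
    by_contra h
    rw [not_lt] at h
    exact absurd (hc2 ▸ pow_le_one' h 2) (not_le.mpr (one_lt_mul'' (one_lt_mul'' k1 k2) k3))
  have hl : A.valuation l ≤ A.valuation c := by
    by_contra h
    rw [not_le] at h
    have hl1 : 1 < A.valuation l := hc1.trans h
    have e : A.valuation (l ^ 2 + l) = A.valuation l ^ 2 := by
      rw [A.valuation.map_add_eq_of_lt_left, map_pow]
      rw [map_pow, sq]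
      exact lt_mul_self hl1
    have hle : A.valuation l ^ 2 ≤ A.valuation c ^ 2 := by
      rw [← e, ← hsum, hc2]
      refine (A.valuation.map_add_le ((A.valuation.map_add_le ?_ ?_)) ?_)
      · rw [mul_assoc]; exact le_mul_of_one_le_right' (one_le_mul k2.le k3.le)
      · rw [mul_comm (A.valuation x₁), mul_assoc]
        exact le_mul_of_one_le_right' (one_le_mul k1.le k3.le)
      · exact le_mul_of_one_le_left' (one_le_mul k1.le k2.le)
    exact absurd hle (not_le.mpr (pow_lt_pow_left₀ h zero_le two_ne_zero))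
  have hlp : A.valuation (l + 1) ≤ A.valuation c :=
    A.valuation.map_add_le hl (by rw [map_one]; exact hc1.le)
  have hac : A.valuation (V.a₆ * (l + 1) ^ 3) < A.valuation (c ^ 3) := by
    rw [map_mul, map_pow, map_pow]
    calc A.valuation V.a₆ * A.valuation (l + 1) ^ 3
        ≤ A.valuation V.a₆ * A.valuation c ^ 3 := mul_le_mul' le_rfl (pow_le_pow_left' hlp 3)
      _ < A.valuation c ^ 3 :=
        mul_lt_of_lt_one_left (pow_pos (zero_lt_one.trans hc1) 3) hT.a₆_lt
  have hden : A.valuation (c ^ 3 - V.a₆ * (l + 1) ^ 3) = A.valuation c ^ 3 := by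
    rw [A.valuation.map_sub_eq_of_lt_left hac, map_pow]
  have hden0 : c ^ 3 - V.a₆ * (l + 1) ^ 3 ≠ 0 := fun h0 => by
    rw [h0, map_zero] at hden
    exact (pow_pos (zero_lt_one.trans hc1) 3).ne hden
  have hmul : ∀ k : K, (k * x₁ + c) * (k * x₂ + c) * (k * x₃ + c) =
      k ^ 3 * (c ^ 2 - V.a₆) + k ^ 2 * c * (-((2 * l + 1) * c)) + k * c ^ 2 * (l ^ 2 + l)
        + c ^ 3 := fun k => by
    linear_combination k ^ 3 * hprod + k ^ 2 * c * hpair + k * c ^ 2 * hsum
  have hD : (y₁ + x₁) * (y₂ + x₂) * ((l * x₃ + c) + x₃) = c ^ 3 - V.a₆ * (l + 1) ^ 3 := by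
    rw [hy₁, hy₂]
    linear_combination hmul (l + 1)
  have hN : y₁ * y₂ * (l * x₃ + c) = c ^ 3 - V.a₆ * l ^ 3 := by
    rw [hy₁, hy₂]
    linear_combination hmul l
  set w := l * x₃ + c
  have hne : (y₁ + x₁) * (y₂ + x₂) * (w + x₃) ≠ 0 := hD ▸ hden0
  simp only [mul_ne_zero_iff] at hne
  obtain ⟨⟨n1, n2⟩, n3⟩ := hne
  have hw : w ≠ 0 := by
    intro h0
    have h := hN
    rw [h0, mul_zero] at h
    have h' : A.valuation (V.a₆ * l ^ 3) < A.valuation (c ^ 3) := by
      rw [map_mul, map_pow, map_pow]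
      exact (mul_le_mul' le_rfl (pow_le_pow_left' hl 3)).trans_lt
        (mul_lt_of_lt_one_left (pow_pos (zero_lt_one.trans hc1) 3) hT.a₆_lt)
    rw [show c ^ 3 = V.a₆ * l ^ 3 by linear_combination -h] at h'
    exact lt_irrefl _ h'
  have key : -(w + x₃) / (-(w + x₃) + x₃) - y₁ / (y₁ + x₁) * (y₂ / (y₂ + x₂)) =
      (w + x₃) / w * (V.a₆ * (l ^ 3 - (l + 1) ^ 3) / (c ^ 3 - V.a₆ * (l + 1) ^ 3)) := by
    rw [show V.a₆ * (l ^ 3 - (l + 1) ^ 3) =
        (y₁ + x₁) * (y₂ + x₂) * (w + x₃) - y₁ * y₂ * w by rw [hD, hN]; ring,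
      show -(w + x₃) + x₃ = -w by ring, neg_div_neg_eq, ← hD]
    field_simp
  rw [key, map_mul, map_div₀ A.valuation (w + x₃), map_div₀, hden, map_mul]
  have h3 : A.valuation ((w + x₃) / w) = 1 := by
    have hins : (w + x₃) / w = torus (Affine.Point.some x₁ y₁ h₁ + Affine.Point.some x₂ y₂ h₂) := by
      rw [Affine.Point.add_some hxy]
      change _ = V.toAffine.addY x₁ x₂ y₁ l / (V.toAffine.addY x₁ x₂ y₁ l + x₃)
      rw [hy₃, show -(w + x₃) + x₃ = -w by ring, neg_div_neg_eq]
    rw [hins]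
    refine valuation_torus_of_inKernel hT ?_
    rw [Affine.Point.add_some hxy]
    exact hadd
  rw [map_div₀] at h3
  rw [h3, one_mul, div_le_iff₀ (pow_pos (zero_lt_one.trans hc1) 3), ← map_pow A.valuation c]
  refine mul_le_mul' le_rfl (A.valuation.map_sub_le ?_ ?_)
  · rw [map_pow, map_pow]; exact pow_le_pow_left' hl 3
  · rw [map_pow, map_pow]; exact pow_le_pow_left' hlp 3

theorem inKernel_nsmul (hT : TateForm A V) {P : V.toAffine.Point} (hP : InKernel A P) :
    ∀ n : ℕ, InKernel A (n • P)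
  | 0 => by rw [zero_nsmul]; exact ECLocal.inKernel_zero A
  | n + 1 => by rw [succ_nsmul]; exact ECLocal.InKernel.add hT.integralAt (inKernel_nsmul hT hP n) hP

theorem valuation_torus_nsmul_sub_le (hT : TateForm A V) {P : V.toAffine.Point}
    (hP : InKernel A P) (n : ℕ) :
    A.valuation (torus (n • P) - torus P ^ n) ≤ A.valuation V.a₆ := by
  induction n with
  | zero => simp [torus_zero]
  | succ n ih =>
    rw [succ_nsmul, show torus (n • P + P) - torus P ^ (n + 1) =
      (torus (n • P + P) - torus (n • P) * torus P) + (torus (n • P) - torus P ^ n) * torus P by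
        ring]
    refine A.valuation.map_add_le (valuation_torus_add_sub_le hT (inKernel_nsmul hT hP n) hP) ?_
    rw [map_mul, valuation_torus_of_inKernel hT hP, mul_one]
    exact ih

/-- Translation by a kernel point multiplies the abscissa by its parameter, up to `D`. -/
theorem valuation_absc_add_sub_lt (hT : TateForm A V) {x y : K} (h : V.toAffine.Nonsingular x y)
    {Q : V.toAffine.Point} (hQ : InKernel A Q) {D : A.ValueGroup} (hD : 0 < D)
    (hx : A.valuation x < 1) (hxD : A.valuation x ^ 2 ≤ D) (hyD : A.valuation y ≤ D)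
    (haD : A.valuation V.a₆ ≤ D) :
    A.valuation (absc (Affine.Point.some x y h + Q) - torus Q * x) < D := by
  match Q, hQ with
  | .zero, _ => simpa [← Affine.Point.zero_def, torus_zero, absc] using hD
  | .some u w h', hu => ?_
  obtain ⟨ku, kuw, ksq, kwu⟩ := kernel_facts hT h'.1 hu
  have hne : x ≠ u := fun e => (ku.trans_le (e ▸ hx.le)).false
  rw [Affine.Point.add_of_X_ne hne]
  change A.valuation (V.toAffine.addX x u (V.toAffine.slope x u y w) - w / (w + u) * x) < D
  rw [Affine.slope_of_X_ne hne, Affine.addX, hT.a₁_eq, hT.a₂_eq]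
  have he := (hT.equation_iff x y).1 h.1
  have he' := (hT.equation_iff u w).1 h'.1
  have hu0 : A.valuation u ≠ 0 := (zero_lt_one.trans ku).ne'
  have hw0 : A.valuation w ≠ 0 := ((zero_lt_one.trans ku).trans kuw).ne'
  have hwu : w + u ≠ 0 := fun h0 => hw0 (by rw [← kwu, h0, map_zero])
  have hxu : x - u ≠ 0 := sub_ne_zero.mpr hne
  have hvxu : A.valuation (x - u) = A.valuation u :=
    A.valuation.map_sub_eq_of_lt_right (hx.trans ku)
  have key : ((y - w) / (x - u)) ^ 2 + 1 * ((y - w) / (x - u)) - 0 - x - u - w / (w + u) * x =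
      (x ^ 2 * (w / (w + u)) * (2 * u - x) + x ^ 2 * u - x * V.a₆ / (w + u) - y * (2 * w + u)
        + 2 * V.a₆) / (x - u) ^ 2 := by
    field_simp
    linear_combination (w + u) * he + (w + u - x) * he'
  rw [key, map_div₀, map_pow, hvxu, div_lt_iff₀ (pow_pos (zero_lt_one.trans ku) 2)]
  have hvw : A.valuation (w / (w + u)) = 1 := by rw [map_div₀, kwu, div_self hw0]
  have huu : A.valuation u < A.valuation u ^ 2 := by rw [sq]; exact lt_mul_self ku
  have hwu2 : A.valuation w < A.valuation u ^ 2 := by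
    refine lt_of_pow_lt_pow_left₀ 2 zero_le ?_
    rw [ksq, ← pow_mul]
    exact pow_lt_pow_right₀ ku (by norm_num)
  have h2 : A.valuation (2 : K) ≤ 1 :=
    (A.valuation_le_one_iff _).mpr (ECLocal.ofNat_mem A 2)
  have hmul : ∀ {r s : A.ValueGroup}, r ≤ D → s < A.valuation u ^ 2 →
      r * s < D * A.valuation u ^ 2 := fun {r s} hr hs =>
    lt_of_le_of_lt (mul_le_mul_left hr s) (mul_lt_mul_of_pos_left hs hD)
  have h1u : 1 < A.valuation u ^ 2 := one_lt_pow₀ ku two_ne_zero
  refine A.valuation.map_add_lt (A.valuation.map_sub_lt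
    (A.valuation.map_sub_lt (A.valuation.map_add_lt ?_ ?_) ?_) ?_) ?_
  · rw [map_mul, map_mul, map_pow, hvw, mul_one]
    refine hmul hxD (lt_of_le_of_lt ?_ huu)
    refine A.valuation.map_sub_le ?_ (hx.trans ku).le
    rw [map_mul]; exact mul_le_of_le_one_left' h2
  · rw [map_mul, map_pow]; exact hmul hxD huu
  · rw [map_div₀, map_mul, kwu, div_lt_iff₀ (zero_lt_iff.mpr hw0)]
    calc A.valuation x * A.valuation V.a₆ ≤ D * 1 := by
          rw [mul_comm]; exact mul_le_mul' haD hx.le
      _ < D * (A.valuation u ^ 2 * A.valuation w) :=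
        mul_lt_mul_of_pos_left (one_lt_mul'' h1u (ku.trans kuw)) hD
      _ = D * A.valuation u ^ 2 * A.valuation w := (mul_assoc _ _ _).symm
  · rw [map_mul]
    refine hmul hyD (A.valuation.map_add_lt ?_ huu)
    rw [map_mul]; exact (mul_le_of_le_one_left' h2).trans_lt hwu2
  · rw [map_mul, mul_comm]
    exact hmul haD (h2.trans_lt h1u)

end Add

end Fermat.Agent.ECFormal
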