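import Fermat.Agent.ECFormal.Kernel
import Fermat.Agent.ECFormal.Mult.Roots
import Fermat.Agent.ECFormal.Mult.TateTorus
import Fermat.Agent.ECLocal.MultSign
import Mathlib.NumberTheory.LegendreSymbol.AddCharacter

/-!
# `E[p]` at a place of peu ramifiée multiplicative reduction

`p ∣ v(Δ)`: `E[p]` has a basis `P, Q` with `Q` in the kernel of reduction, and there is a unit `η`
with `η ^ p` fixed by inertia, such that for `σ` in inertia
`σ ζ = ζ ^ b`, `σ η = ζ ^ c * η`, `σ Q = b Q`, `σ P = P + c Q`.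
`η` is a Lagrange resolvent of the abscissae of `P + j Q` in normal form.
-/

set_option autoImplicit false

noncomputable section

namespace Fermat.Agent.ECFormal

open WeierstrassCurve
open Fermat.Agent.Galois (Qbar GalQ)
open Fermat.Agent.ECLocal (InKernel NonsingRed MultAt vcMap vcX)
open scoped WeierstrassCurve.Affine

/-- `j ↦ j • P` for `P` killed by `p`. -/
def lineHom {G : Type*} [AddCommGroup G] {p : ℕ} (P : G) (h : p • P = 0) : ZMod p →+ G :=
  ZMod.lift p ⟨zmultiplesHom G P, by rw [zmultiplesHom_apply, natCast_zsmul, h]⟩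

theorem lineHom_intCast {G : Type*} [AddCommGroup G] {p : ℕ} (P : G) (h : p • P = 0) (i : ℤ) :
    lineHom P h (i : ZMod p) = i • P := by
  rw [lineHom, ZMod.lift_coe, zmultiplesHom_apply]

theorem lineHom_apply {G : Type*} [AddCommGroup G] {p : ℕ} [NeZero p] (P : G) (h : p • P = 0)
    (j : ZMod p) : lineHom P h j = j.val • P := by
  have := lineHom_intCast P h (j.val : ℤ)
  rwa [Int.cast_natCast, ZMod.natCast_zmod_val, natCast_zsmul] at this

theorem valuation_pow_sub_pow_le {K : Type*} [Field K] {A : ValuationSubring K} {e z : K}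
    (he : A.valuation e ≤ 1) (hz : A.valuation z ≤ 1) (n : ℕ) :
    A.valuation (e ^ n - z ^ n) ≤ A.valuation (e - z) := by
  rw [← geom_sum₂_mul, map_mul]
  refine mul_le_of_le_one_left' (A.valuation.map_sum_le fun i _ => ?_)
  rw [map_mul, map_pow, map_pow]
  exact mul_le_one' (pow_le_one' he i) (pow_le_one' hz _)

theorem valuation_root_mul_leadingCoeff_le {K : Type*} [Field K] {A : ValuationSubring K}
    {g : Polynomial K} (hg : ∀ k, A.valuation (g.coeff k) ≤ 1) {x : K} (hroot : g.IsRoot x)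
    (hx : 1 < A.valuation x) : A.valuation x * A.valuation g.leadingCoeff ≤ 1 := by
  rcases Nat.eq_zero_or_pos g.natDegree with h | h
  · have h0 : g.coeff 0 = 0 := by
      rw [Polynomial.eq_C_of_natDegree_eq_zero h, Polynomial.IsRoot, Polynomial.eval_C] at hroot
      exact hroot
    rw [Polynomial.leadingCoeff, h, h0, map_zero, mul_zero]
    exact zero_le
  obtain ⟨d, hd⟩ : ∃ d, g.natDegree = d + 1 := ⟨g.natDegree - 1, by omega⟩
  have h1 := hroot.eq_zero
  rw [Polynomial.eval_eq_sum_range, Finset.sum_range_succ, add_eq_zero_iff_eq_neg'] at h1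
  have hle : A.valuation (g.coeff g.natDegree * x ^ g.natDegree) ≤ A.valuation x ^ d := by
    rw [h1, Valuation.map_neg]
    refine A.valuation.map_sum_le fun i hi => ?_
    rw [map_mul, map_pow]
    exact (mul_le_of_le_one_left' (hg i)).trans
      (pow_le_pow_right' hx.le (by have := Finset.mem_range.mp hi; omega))
  rw [map_mul, map_pow, hd, pow_succ] at hle
  refine le_of_mul_le_mul_left (a := A.valuation x ^ d) ?_ (pow_pos (zero_lt_one.trans hx) d)
  rw [mul_one]
  refine le_of_eq_of_le ?_ hle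
  rw [Polynomial.leadingCoeff, hd, ← mul_assoc, mul_comm]

theorem absc_ringPoint {K : Type*} [Field K] [DecidableEq K] {V : WeierstrassCurve K}
    (τ : K →+* K) (h : V.map τ = V) (P : V.toAffine.Point) :
    absc (ECLocal.ringPoint τ h P) = τ (absc P) := by
  match P with
  | .zero => exact (map_zero τ).symm
  | .some x y hxy => rfl

theorem torus_ringPoint {K : Type*} [Field K] [DecidableEq K] {V : WeierstrassCurve K}
    (τ : K →+* K) (h : V.map τ = V) (P : V.toAffine.Point) :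
    torus (ECLocal.ringPoint τ h P) = τ (torus P) := by
  match P with
  | .zero => exact (map_one τ).symm
  | .some x y hxy =>
    rw [ECLocal.ringPoint_some, torus_some, torus_some, map_div₀, map_add]

variable (W : WeierstrassCurve ℤ) {p : ℕ} {A : ValuationSubring Qbar}

theorem exists_kummer_of_mult (hΔ : W.Δ ≠ 0) (hp : p.Prime) (hp2 : p ≠ 2)
    (hA : A.LiesOverPrime p) (hd : (p : ℤ) ∣ W.Δ) (hc : ¬ (p : ℤ) ∣ W.c₄)
    (hv : p ∣ padicValInt p W.Δ) :
    ∃ (P Q : Tors W p) (ζ η : Qbar), InKernel A (Q : PointQbar W) ∧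
      ¬ InKernel A (P : PointQbar W) ∧ IsPrimitiveRoot ζ p ∧ A.valuation η = 1 ∧
      Function.Bijective (fun ij : ZMod p × ZMod p => ij.1.val • P + ij.2.val • Q) ∧
      ∀ σ ∈ A.inertiaSubgroupIn ℚ, σ (η ^ p) = η ^ p ∧
        ∃ b c : ZMod p, σ ζ = ζ ^ b.val ∧ σ η = ζ ^ c.val * η ∧
          σ • Q = b.val • Q ∧ σ • P = P + c.val • Q := by
  classical
  have : Algebra.IsAlgebraic ℚ Qbar := AlgebraicClosure.isAlgebraic ℚ
  have := Fact.mk hp
  have := NeZero.mk hp.ne_zero
  have hss : SemistableAt W p := fun _ => hc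
  have hV := ECLocal.multAt_intModel W hΔ hp hd hc A hA
  have hV' : MultAt A ((W.map (Int.castRingHom ℚ))⁄Qbar) := hV
  obtain ⟨a, C, hI, hT, ha, hva, hC⟩ := ECLocal.exists_twisted_normalForm (S := ℚ) hV'
  set π := A.valuation (p : Qbar) with hπ
  have hπ1 : π < 1 := valuation_natPrime_lt_one hA
  have hπ0 : 0 < π := zero_lt_iff.mpr (valuation_natPrime_ne_zero hp A)
  have hanti : StrictAnti fun n : ℕ => π ^ n := pow_right_strictAnti₀ hπ0 hπ1
  -- valuation of the parameter
  obtain ⟨k₀, hm⟩ := hv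
  set m := padicValInt p W.Δ with hm'
  have hm1 : 1 ≤ m := by
    have := (padicValInt_dvd_iff 1 W.Δ).mp (by simpa using hd)
    omega
  have hk₀ : 1 ≤ k₀ := Nat.pos_of_mul_pos_left (hm ▸ hm1 : 0 < p * k₀)
  have hp3 : 3 ≤ p := by have := hp.two_le; omega
  have hm3 : 3 ≤ m := by rw [hm]; calc 3 ≤ p * 1 := by omega
                                    _ ≤ p * k₀ := Nat.mul_le_mul_left p hk₀
  have hva' : A.valuation (C • ((W.map (Int.castRingHom ℚ))⁄Qbar)).a₆ = π ^ m := by
    rw [ha, hva, ECLocal.intModel_Δ, ECLocal.valuation_intCast_eq_pow hp hΔ A hA]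
  -- the kernel line
  obtain ⟨Q₀, hQ₀k, hQ₀, hpQ₀⟩ := exists_kernel_prime_point W hΔ hA hp hp2 hss
  have hQord : addOrderOf Q₀ = p := addOrderOf_eq_prime hpQ₀ hQ₀
  set f := vcMap ((W.map (Int.castRingHom ℚ))⁄Qbar) C with hf
  have hfk : InKernel A (f Q₀) := (hI.inKernel_iff Q₀).mpr hQ₀k
  have hpQ' : p • f Q₀ = 0 := by rw [← map_nsmul, hpQ₀, map_zero]
  set e := torus (f Q₀) with he
  have he1 : A.valuation e = 1 := valuation_torus_of_inKernel hT hfk
  have het : π ≤ A.valuation (e - 1) ^ 2 := by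
    match Q₀, hQ₀k, hQ₀, hpQ₀ with
    | .zero, _, h, _ => exact absurd rfl h
    | .some x y h, hxA, _, hpx => ?_
    rw [he, hf, ECLocal.vcMap_some] at *
    have hx' : vcX C x ∉ A := fun hh => hxA ((hI.vcX_mem_iff x).mp hh)
    obtain ⟨-, h2⟩ := valuation_torus hT _ hx'
    have hx1 : 1 < A.valuation x := not_le.mp fun hh => hxA ((A.valuation_le_one_iff x).mp hh)
    have hvx : A.valuation (vcX C x) = A.valuation x := by
      rw [ECLocal.vcX, map_div₀, map_pow, hI.valuation_u, one_pow, div_one,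
        A.valuation.map_sub_eq_of_lt_left
          (((A.valuation_le_one_iff _).mpr hI.r_mem).trans_lt hx1)]
    have hb := valuation_root_mul_leadingCoeff_le (valuation_coeff_divPoly_le W A p)
      ((natSmul_some_eq_zero_iff W hp hp2 h).mp hpx) hx1
    rw [leadingCoeff_divPoly W hp hp2, ← hπ] at hb
    rw [hvx] at h2
    refine le_of_mul_le_mul_left (a := A.valuation x) ?_ (zero_lt_one.trans hx1)
    rw [mul_comm (A.valuation x) (_ ^ 2), h2]
    exact hb
  obtain ⟨ζ, hζp, hζe⟩ := exists_rootOfUnity_close (A := A) hp (e := e) (by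
    rw [Valuation.map_sub_swap]
    have h := valuation_torus_nsmul_sub_le hT hfk p
    rw [hpQ', torus_zero, hva'] at h
    exact h.trans (hanti.antitone hm3))
  have hζ : IsPrimitiveRoot ζ p := by
    rw [IsPrimitiveRoot.iff_orderOf]
    refine orderOf_eq_prime hζp fun h1 => ?_
    rw [h1] at hζe
    have hle : π ≤ (π ^ 2) ^ 2 := het.trans (pow_le_pow_left' hζe 2)
    rw [← pow_mul] at hle
    exact absurd (hanti (show 1 < 2 * 2 by norm_num)) (by simpa using hle.not_gt)
  set χ : AddChar (ZMod p) Qbar := AddChar.zmodChar p hζp with hχdef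
  have hχ : ∀ j : ZMod p, χ j = ζ ^ j.val := AddChar.zmodChar_apply hζp
  have hχ1 : χ 1 = ζ := by rw [hχ, ZMod.val_one, pow_one]
  have hχp : ∀ j, χ j ^ p = 1 := fun j => by rw [hχ, pow_right_comm, hζp, one_pow]
  set ψ := lineHom (f Q₀) hpQ' with hψ
  have hψk : ∀ j, InKernel A (ψ j) := fun j => by
    rw [hψ, lineHom_apply]; exact inKernel_nsmul hT hfk _
  have htor : ∀ j, A.valuation (torus (ψ j) - χ j) ≤ π ^ 2 := fun j => by
    rw [hψ, lineHom_apply, hχ,
      show torus (j.val • f Q₀) - ζ ^ j.val =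
        (torus (j.val • f Q₀) - e ^ j.val) + (e ^ j.val - ζ ^ j.val) by ring]
    refine A.valuation.map_add_le ((valuation_torus_nsmul_sub_le hT hfk _).trans ?_)
      ((valuation_pow_sub_pow_le he1.le (valuation_rootOfUnity hp hζp).le _).trans hζe)
    rw [hva']; exact hanti.antitone (by omega)
  -- a point on another component
  obtain ⟨P₀, hpP₀, hP₀k, l, hl, x, y, hxy, hfP, hvx, hvy⟩ : ∃ P₀ : PointQbar W, p • P₀ = 0 ∧
      ¬ InKernel A P₀ ∧ ∃ l : ℕ, 1 ≤ l ∧ ∃ (x y : Qbar) (hxy : (C • ((W.map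
        (Int.castRingHom ℚ))⁄Qbar)).toAffine.Nonsingular x y),
        f P₀ = Affine.Point.some x y hxy ∧ A.valuation x = π ^ l ∧
        (A.valuation y ≤ π ^ (l + 1) ∧ 2 * l + 1 ≤ m) := by
    obtain ⟨T, hpT, hTns⟩ := exists_singular_prime_point W hΔ hA hp hp2 hd hc
    have hfns : ¬ NonsingRed A (f T) := fun h =>
      hTns ((hI.nonsingRed_iff hV'.toIntegralAt T).mp h)
    obtain ⟨γ, Pm, hpm, hlab⟩ : ∃ γ, ∃ Pm : PointQbar W, p • Pm = 0 ∧
        ECLocal.HasLabel A γ (f Pm) := by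
      obtain ⟨γ, h | h⟩ := hT.exists_label hfns
      · exact ⟨γ, T, hpT, h⟩
      · exact ⟨γ, -T, by rw [neg_nsmul, hpT, neg_zero], by rwa [map_neg]⟩
    obtain ⟨k, hk⟩ := hT.exists_pow_of_torsion hlab
      (show p • f Pm = 0 by rw [← map_nsmul, hpm, map_zero])
    have hPmk : ¬ InKernel A (-Pm) := fun h => hT.not_nonsingRed_of_hasLabel hlab
      ((hI.nonsingRed_iff hV'.toIntegralAt Pm).mpr (by
        simpa using (ECLocal.InKernel.neg hV'.toIntegralAt h).nonsingRed))
    refine ⟨-Pm, by rw [neg_nsmul, hpm, neg_zero], hPmk, k₀ * k, ?_⟩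
    rw [map_neg]
    rcases hfPm : f Pm with _ | ⟨x, y, hxy⟩
    · rw [hfPm] at hlab; exact hlab.elim
    rw [hfPm] at hlab
    obtain ⟨hx1, hy1, hyγ, hzγ⟩ := hlab
    obtain ⟨-, hγ1, hle, hγ0, hstrict⟩ := hT.label_facts hxy.1 hy1 hyγ hzγ
    rw [hva'] at hk hle hstrict
    have hγ : γ = π ^ (k₀ * k) := by
      refine (pow_left_inj₀ zero_le zero_le hp.ne_zero).mp ?_
      rw [hk, hm, ← pow_mul, ← pow_mul]
      ring_nf
    have hl : 1 ≤ k₀ * k := Nat.one_le_iff_ne_zero.mpr fun h0 => hγ1.ne (by rw [hγ, h0, pow_zero])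
    have hne : m ≠ (k₀ * k) * 2 := by
      intro h0
      rw [hm, mul_comm p, mul_assoc] at h0
      have hp2k : p = k * 2 := Nat.eq_of_mul_eq_mul_left hk₀ h0
      exact Nat.not_even_iff_odd.mpr (hp.odd_of_ne_two hp2) ⟨k, by omega⟩
    have hlt : π ^ m < γ ^ 2 := by
      rw [hγ, ← pow_mul]
      refine lt_of_le_of_ne (by rwa [hγ, ← pow_mul] at hle) fun h0 => hne (hanti.injective h0)
    obtain ⟨hzlt, hvx⟩ := hstrict hlt
    have h2l : 2 * (k₀ * k) + 1 ≤ m := by
      rw [hγ, ← pow_mul] at hlt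
      have := hanti.lt_iff_gt.mp hlt
      omega
    refine ⟨hl, x, _, _, Affine.Point.neg_some hxy, by rw [hvx, hγ], ?_, h2l⟩
    rw [hT.negY_eq, Valuation.map_neg]
    refine le_of_mul_le_mul_left (a := γ) ?_ (zero_lt_iff.mpr hγ0)
    rw [← hyγ, ← map_mul, (hT.equation_iff x y).1 hxy.1, hyγ]
    refine A.valuation.map_add_le ?_ ?_
    · rw [map_pow, hvx, hγ, ← pow_mul, ← pow_add]; exact hanti.antitone (by omega)
    · rw [hva', hγ, ← pow_add]; exact hanti.antitone (by omega)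
  obtain ⟨hvy, h2l⟩ := hvy
  set D := π ^ (l + 1) with hD
  have hxl : A.valuation x < 1 := hvx ▸ pow_lt_one₀ zero_le hπ1 (by omega)
  set X : ZMod p → Qbar := fun j => absc (f P₀ + ψ j) with hX
  have hXj : ∀ j, A.valuation (X j - χ j * x) < D := fun j => by
    rw [hX, show absc (f P₀ + ψ j) - χ j * x =
      (absc (f P₀ + ψ j) - torus (ψ j) * x) + (torus (ψ j) - χ j) * x by ring]
    refine A.valuation.map_add_lt ?_ ?_
    · rw [hfP]
      refine valuation_absc_add_sub_lt hT hxy (hψk j) (pow_pos hπ0 _) hxl ?_ hvy ?_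
      · rw [hvx, ← pow_mul]; exact hanti.antitone (by omega)
      · rw [hva']; exact hanti.antitone (by omega)
    · rw [map_mul, hvx]
      refine lt_of_le_of_lt (mul_le_mul' (htor j) le_rfl) ?_
      rw [← pow_add]
      exact hanti (show l + 1 < 2 + l by omega)
  set g := ∑ j : ZMod p, χ (-j) * X j with hg
  have hgsub : g - (p : Qbar) * x = ∑ j : ZMod p, χ (-j) * (X j - χ j * x) := by
    rw [hg]
    simp only [mul_sub, ← mul_assoc, ← AddChar.map_add_eq_mul, neg_add_cancel,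
      AddChar.map_zero_eq_one, one_mul, Finset.sum_sub_distrib, Finset.sum_const,
      Finset.card_univ, ZMod.card, nsmul_eq_mul]
  have hpx : A.valuation ((p : Qbar) * x) = D := by rw [map_mul, hvx, ← hπ, hD, pow_succ']
  have hvg : A.valuation g = D := by
    rw [← hpx]
    refine A.valuation.map_eq_of_sub_lt ?_
    rw [hgsub, hpx]
    refine A.valuation.map_sum_lt (pow_pos hπ0 _).ne' fun j _ => ?_
    rw [map_mul, valuation_rootOfUnity hp (hχp _), one_mul]
    exact hXj j
  set η := g / (p : Qbar) ^ (l + 1) with hη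
  have hvη : A.valuation η = 1 := by
    rw [hη, map_div₀, map_pow, hvg, div_self (pow_pos hπ0 _).ne']
  -- the basis
  have hψ₀ : ∀ j, lineHom Q₀ hpQ₀ j = j.val • Q₀ := lineHom_apply Q₀ hpQ₀
  let P : Tors W p := ⟨P₀, (mem_tors_iff W P₀).mpr hpP₀⟩
  let Q : Tors W p := ⟨Q₀, (mem_tors_iff W Q₀).mpr hpQ₀⟩
  have hord : OrdinaryAtPlace W p A := ⟨P, hP₀k⟩
  have hker : ∀ R : PointQbar W, InKernel A R → p • R = 0 → ∃ j : ZMod p, R = j.val • Q₀ := by
    intro R hR hpR
    obtain ⟨i, hi⟩ := AddSubgroup.mem_zmultiples_iff.mp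
      (mem_zmultiples_of_kernel_prime W hΔ hp hord hQ₀k hQord hR hpR)
    exact ⟨(i : ZMod p), by rw [← hψ₀, lineHom_intCast, hi]⟩
  refine ⟨P, Q, ζ, η, hQ₀k, hP₀k, hζ, hvη, ?_, fun σ hσ => ?_⟩
  · let Φ : ZMod p × ZMod p →+ PointQbar W := (lineHom P₀ hpP₀).coprod (lineHom Q₀ hpQ₀)
    have hΦ : Function.Injective Φ := by
      rw [injective_iff_map_eq_zero]
      rintro ⟨i, j⟩ hij
      rw [AddMonoidHom.coprod_apply, hψ₀, lineHom_apply] at hij
      have hi : i = 0 := by
        by_contra hi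
        apply hP₀k
        have h1 : InKernel A (i.val • P₀) := by
          rw [add_eq_zero_iff_eq_neg] at hij
          rw [hij]
          exact (kerRed W A).neg_mem ((kerRed W A).nsmul_mem hQ₀k _)
        have h2 := (kerRed W A).nsmul_mem h1 (i⁻¹).val
        rwa [← mul_nsmul', ← natCast_zsmul, ← lineHom_intCast P₀ hpP₀,
          Int.cast_natCast, Nat.cast_mul, ZMod.natCast_zmod_val, ZMod.natCast_zmod_val,
          inv_mul_cancel₀ hi, ← Int.cast_one, lineHom_intCast, one_zsmul] at h2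
      subst hi
      rw [ZMod.val_zero, zero_nsmul, zero_add] at hij
      have hj : p ∣ j.val := (dvd_of_eq hQord.symm).trans (addOrderOf_dvd_of_nsmul_eq_zero hij)
      exact Prod.ext rfl ((ZMod.val_eq_zero j).mp (Nat.eq_zero_of_dvd_of_lt hj (ZMod.val_lt j)))
    have := finite_tors W hΔ hp.ne_zero
    refine (Nat.bijective_iff_injective_and_card _).mpr ⟨fun u v huv => hΦ ?_, ?_⟩
    · have h := congrArg (fun R : Tors W p => (R : PointQbar W)) huv
      simpa [Φ, AddMonoidHom.coprod_apply, hψ₀, lineHom_apply] using h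
    · rw [Nat.card_prod, Nat.card_zmod, natCard_tors W hΔ hp.ne_zero, sq]
  have hσd := ECLocal.decomposition_of_inertia hσ
  obtain ⟨-, -, z, -, hz1, -, hτ, heq⟩ := hC σ hσd
  obtain rfl := hz1 hσ
  simp only [one_zsmul] at heq
  set τ := ECLocal.ringPoint (σ : Qbar →+* Qbar) hτ with hτdef
  obtain ⟨b, hb⟩ := hker (σ • Q₀) (ECLocal.InKernel.smul hQ₀k hσd)
    (by rw [smul_comm, hpQ₀]; rfl)
  obtain ⟨c, hc'⟩ := hker (σ • P₀ - P₀)
    (ECLocal.inKernel_smul_sub_of_torsion hV' hσ hp (c := (p : ℚ) ^ k₀) (by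
      rw [map_pow, map_natCast, map_pow, ← pow_mul, ECLocal.intModel_Δ,
        ECLocal.valuation_intCast_eq_pow hp hΔ A hA, ← hm', hm, mul_comm p]) hpP₀)
    (by rw [nsmul_sub, smul_comm, hpP₀]; exact sub_self _)
  have hτQ : τ (f Q₀) = ψ b := by
    rw [← heq, hb, map_nsmul, hψ, lineHom_apply]
  have hτP : τ (f P₀) = f P₀ + ψ c := by
    rw [← heq, sub_eq_iff_eq_add'.mp hc', map_add, map_nsmul, hψ, lineHom_apply]
  have hσζ : σ ζ = χ b := by
    refine rootOfUnity_eq_of_close hA hp (by rw [← map_pow, hζp, map_one]) (hχp b)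
      (e := torus (ψ b)) ?_ (htor b)
    rw [← hτQ, hτdef, torus_ringPoint, ← he]
    change A.valuation (σ e - σ ζ) ≤ _
    rw [← map_sub, ECLocal.valuation_map_eq hσd]
    exact hζe
  have hb0 : b ≠ 0 := by
    rintro rfl
    rw [AddChar.map_zero_eq_one] at hσζ
    exact hζ.ne_one hp.one_lt (σ.injective (hσζ.trans (map_one σ).symm))
  have hσχ : ∀ j, σ (χ j) = χ (b * j) := fun j => by
    rw [hχ j, map_pow, hσζ, ← AddChar.map_nsmul_eq_pow, nsmul_eq_mul, ZMod.natCast_zmod_val,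
      mul_comm]
  have hτψ : ∀ j, τ (ψ j) = ψ (b * j) := fun j => by
    conv_lhs => rw [hψ, lineHom_apply, map_nsmul, hτQ, ← map_nsmul, nsmul_eq_mul,
      ZMod.natCast_zmod_val, mul_comm]
  have hσX : ∀ j, σ (X j) = X (c + b * j) := fun j => by
    change (σ : Qbar →+* Qbar) (absc (f P₀ + ψ j)) = _
    rw [← absc_ringPoint _ hτ, ← hτdef, map_add, hτP, hτψ, add_assoc, ← map_add ψ]
  have hσg : σ g = χ c * g := by
    rw [hg, map_sum, Finset.mul_sum]
    refine Fintype.sum_equiv ((Equiv.mulLeft₀ b hb0).trans (Equiv.addLeft c)) _ _ fun j => ?_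
    simp only [Equiv.trans_apply, Equiv.coe_addLeft, Equiv.mulLeft₀_apply]
    rw [map_mul, hσχ, hσX, ← mul_assoc, ← AddChar.map_add_eq_mul]
    congr 2
    ring
  have hση : σ η = χ c * η := by
    rw [hη, map_div₀, map_pow, map_natCast, hσg, mul_div_assoc]
  refine ⟨by rw [map_pow, hση, mul_pow, hχp, one_mul], b, c, hσζ.trans (hχ b),
    by rw [hση, hχ], Subtype.ext hb, Subtype.ext ?_⟩
  exact sub_eq_iff_eq_add'.mp hc'

end Fermat.Agent.ECFormal
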