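import Fermat.Agent.ECFormal.FlatCriterion
import Fermat.Agent.ECFormal.Mult.Kummer

/-!
# Peu ramifiée multiplicative reduction: `E[p]` is finite flat at `p`

With the Kummer form `P, Q, ζ, η`: the functions `[i P + j Q ↦ ζ ^ j η ^ i]` and the indicators of
the cosets of the line satisfy the flatness criterion.
-/

set_option autoImplicit false

noncomputable section

namespace Fermat.Agent.ECFormal

open WeierstrassCurve
open Fermat.Agent.Galois (Qbar GalQ)
open Fermat.Agent.ECLocal (InKernel NonsingRed)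
open scoped WeierstrassCurve.Affine

variable (W : WeierstrassCurve ℤ) {p : ℕ} {A : ValuationSubring Qbar}

theorem hasFlatModelAt_tors_of_mult_place (hΔ : W.Δ ≠ 0) (hp : p.Prime) (hp2 : p ≠ 2)
    (hA : A.LiesOverPrime p) (hd : (p : ℤ) ∣ W.Δ) (hc : ¬ (p : ℤ) ∣ W.c₄)
    (hv : p ∣ padicValInt p W.Δ) :
    FFG.HasFlatModelAt p (fun (σ : GalQ) (P : Tors W p) => σ • P) := by
  classical
  have := Fact.mk hp
  have := NeZero.mk hp.ne_zero
  have := finite_tors W hΔ hp.ne_zero
  obtain ⟨P, Q, ζ, η, -, -, hζ, hη, hbij, hgal⟩ := exists_kummer_of_mult W hΔ hp hp2 hA hd hc hv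
  have hfin : ∃ L : IntermediateField ℚ Qbar, FiniteDimensional ℚ L ∧
      ∀ σ ∈ L.fixingSubgroup, ∀ m : Tors W p, σ • m = m := by
    have : Algebra.IsAlgebraic ℚ Qbar := AlgebraicClosure.isAlgebraic ℚ
    obtain ⟨L, hL, h⟩ := ECTorsion.exists_finite_level (S := ℚ) (W := W.map (Int.castRingHom ℚ))
      (K := Qbar) (ECTorsion.algebraMap_qbar_Δ_ne_zero _
        (ECTorsion.map_castRingHom_Δ_ne_zero W hΔ)) (n := p) (Nat.cast_ne_zero.mpr hp.ne_zero)
    exact ⟨L, hL, fun σ hσ m => h σ ((IntermediateField.mem_fixingSubgroup_iff L σ).mp hσ) m⟩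
  -- coordinates
  have hpP : ∀ R : Tors W p, p • R = 0 := fun R =>
    Subtype.ext (nsmul_tors_eq_zero W R)
  let Φ₀ : ZMod p × ZMod p →+ Tors W p := (lineHom P (hpP P)).coprod (lineHom Q (hpP Q))
  have hΦ₀ : ⇑Φ₀ = fun ij : ZMod p × ZMod p => ij.1.val • P + ij.2.val • Q := by
    funext ij
    rw [AddMonoidHom.coprod_apply, lineHom_apply, lineHom_apply]
  let co : ZMod p × ZMod p ≃+ Tors W p := AddEquiv.ofBijective Φ₀ (hΦ₀ ▸ hbij)
  have hco : ∀ ij, co ij = ij.1.val • P + ij.2.val • Q := fun ij => congrFun hΦ₀ ij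
  set χ : AddChar (ZMod p) Qbar := AddChar.zmodChar p hζ.pow_eq_one
  have hχ : ∀ j : ZMod p, χ j = ζ ^ j.val := AddChar.zmodChar_apply hζ.pow_eq_one
  let cls : Tors W p → ZMod p := fun R => (co.symm R).1
  let E : Tors W p → Qbar := fun R => χ (co.symm R).2 * η ^ (cls R).val
  let ind : ZMod p → Tors W p → Qbar := fun i R => if cls R = i then 1 else 0
  have hindA : ∀ i R, ind i R ∈ A := fun i R => by
    simp only [ind]; split_ifs; exacts [A.one_mem, A.zero_mem]
  have hact : ∀ σ ∈ A.inertiaSubgroupIn ℚ, ∃ b c : ZMod p, σ ζ = χ b ∧ σ η = χ c * η ∧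
      σ (η ^ p) = η ^ p ∧
      ∀ R, co.symm (σ • R) = ((co.symm R).1, (co.symm R).1 * c + b * (co.symm R).2) := by
    intro σ hσ
    obtain ⟨hfix, b, c, hb, hc', hQ, hP⟩ := hgal σ hσ
    refine ⟨b, c, by rw [hb, hχ], by rw [hc', hχ], hfix, fun R => ?_⟩
    obtain ⟨⟨i, j⟩, rfl⟩ := co.surjective R
    rw [AddEquiv.symm_apply_apply, AddEquiv.symm_apply_eq, hco,
      show σ • (i.val • P + j.val • Q) = i.val • (σ • P) + j.val • (σ • Q) by
        rw [smul_add, smul_comm, smul_comm σ j.val], hP, hQ, smul_add]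
    change _ = co (i, i * c + b * j)
    rw [hco, smul_smul, smul_smul, add_assoc, ← add_nsmul]
    congr 1
    change (i.val * c.val + j.val * b.val) • Q = (i * c + b * j).val • Q
    rw [← lineHom_apply Q (hpP Q), ← natCast_zsmul, ← lineHom_intCast Q (hpP Q)]
    congr 1
    push_cast
    simp only [ZMod.natCast_zmod_val]
    ring
  set Φ : Set (Tors W p → Qbar) := insert E (Set.range ind)
  have hvalE : ∀ R, E R ∈ A := fun R => by
    refine A.mul_mem _ _ ((A.valuation_le_one_iff _).mp (le_of_eq ?_))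
      (A.pow_mem ((A.valuation_le_one_iff _).mp hη.le) _)
    exact valuation_rootOfUnity hp (by rw [hχ, pow_right_comm, hζ.pow_eq_one, one_pow])
  refine hasFlatModelAt_of_generators hfin hA hp Φ ?_ ?_ ?_ ?_
  · rintro φ (rfl | ⟨i, rfl⟩) R
    exacts [hvalE R, hindA i R]
  · rintro φ (rfl | ⟨i, rfl⟩) σ hσ R <;> obtain ⟨b, c, hb, hc', -, hR⟩ := hact σ hσ
    · simp only [E, cls, hR]
      rw [map_mul, map_pow, hc', hχ (co.symm R).2, map_pow, hb, mul_pow,
        ← AddChar.map_nsmul_eq_pow, ← AddChar.map_nsmul_eq_pow, nsmul_eq_mul, nsmul_eq_mul,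
        ZMod.natCast_zmod_val, ZMod.natCast_zmod_val, ← mul_assoc, ← AddChar.map_add_eq_mul]
      ring_nf
    · simp only [ind, cls, hR, apply_ite σ, map_one, map_zero]
  · intro R R' h
    have h1 : cls R = cls R' := by
      have := h (ind (cls R)) (Or.inr ⟨_, rfl⟩)
      simp only [ind, if_pos rfl] at this
      by_contra hne
      rw [if_neg (Ne.symm hne)] at this
      exact one_ne_zero this
    have h2 := h E (Or.inl rfl)
    simp only [E, h1] at h2
    have hη0 : η ≠ 0 := fun h0 => by simp [h0] at hη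
    rw [mul_left_inj' (pow_ne_zero _ hη0), hχ, hχ] at h2
    have h3 := hζ.pow_inj (ZMod.val_lt _) (ZMod.val_lt _) h2
    exact co.symm.injective (Prod.ext h1 (ZMod.val_injective p h3))
  · -- comultiplication
    have hηu : (η ^ p)⁻¹ ∈ A := by
      rw [← A.valuation_le_one_iff, map_inv₀, map_pow, hη, one_pow, inv_one]
    have hη0 : η ≠ 0 := fun h0 => by simp [h0] at hη
    have hfst : ∀ φ ∈ Φ, φ ∘ Prod.fst ∈ genAlg A (prodGen Φ) := fun φ hφ =>
      subset_genAlg _ _ (Or.inl ⟨φ, hφ, rfl⟩)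
    have hsnd : ∀ φ ∈ Φ, φ ∘ Prod.snd ∈ genAlg A (prodGen Φ) := fun φ hφ =>
      subset_genAlg _ _ (Or.inr ⟨φ, hφ, rfl⟩)
    have hind : ∀ i, ind i ∈ Φ := fun i => Or.inr ⟨i, rfl⟩
    have hcls : ∀ R S : Tors W p, cls (R + S) = cls R + cls S := fun R S => by
      simp only [cls, map_add, Prod.fst_add]
    rintro φ (rfl | ⟨k, rfl⟩)
    · let kk : ZMod p → ZMod p → A := fun i i' =>
        if i.val + i'.val < p then 1 else ⟨(η ^ p)⁻¹, hηu⟩
      have key : (fun z : Tors W p × Tors W p => E (z.1 + z.2)) =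
          ∑ i, ∑ i', kk i i' • ((ind i ∘ Prod.fst) * (ind i' ∘ Prod.snd) *
            ((E ∘ Prod.fst) * (E ∘ Prod.snd))) := by
        funext z
        simp only [Finset.sum_apply, Pi.smul_apply, Pi.mul_apply, Function.comp_apply]
        rw [Finset.sum_eq_single (cls z.1) (fun i _ hi => ?_) (by simp),
          Finset.sum_eq_single (cls z.2) (fun i _ hi => ?_) (by simp)]
        · simp only [ind, if_pos rfl, one_mul, kk, Algebra.smul_def]
          simp only [E, hcls, map_add, Prod.snd_add, AddChar.map_add_eq_mul]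
          split_ifs with h
          · rw [map_one, one_mul, ZMod.val_add_of_lt h]; ring
          · rw [ZMod.val_add_of_le (not_lt.mp h)]
            change _ = (η ^ p)⁻¹ * _
            rw [pow_sub₀ _ hη0 (not_lt.mp h)]
            ring
        · simp only [ind, if_neg (Ne.symm hi)]; simp
        · simp only [ind, if_neg (Ne.symm hi)]; simp
      rw [key]
      exact Subalgebra.sum_mem _ fun i _ => Subalgebra.sum_mem _ fun i' _ =>
        Subalgebra.smul_mem _ (mul_mem (mul_mem (hfst _ (hind i)) (hsnd _ (hind i')))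
          (mul_mem (hfst _ (Or.inl rfl)) (hsnd _ (Or.inl rfl)))) _
    · have key : (fun z : Tors W p × Tors W p => ind k (z.1 + z.2)) =
          ∑ i, (ind i ∘ Prod.fst) * (ind (k - i) ∘ Prod.snd) := by
        funext z
        simp only [Finset.sum_apply, Pi.mul_apply, Function.comp_apply]
        rw [Finset.sum_eq_single (cls z.1) (fun i _ hi => ?_) (by simp)]
        · simp only [ind, if_pos rfl, one_mul, hcls, eq_sub_iff_add_eq']
        · simp only [ind, if_neg (Ne.symm hi), zero_mul]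
      rw [key]
      exact Subalgebra.sum_mem _ fun i _ => mul_mem (hfst _ (hind i)) (hsnd _ (hind _))

/-- Multiplicative reduction with `p ∣ v(Δ)` (peu ramifiée): `E[p]` is finite flat over `ℤ_(p)`. -/
theorem hasFlatModelAt_tors_of_mult (hΔ : W.Δ ≠ 0) (hp : p.Prime) (hp2 : p ≠ 2)
    (hd : (p : ℤ) ∣ W.Δ) (hc : ¬ (p : ℤ) ∣ W.c₄) (hv : p ∣ padicValInt p W.Δ) :
    FFG.HasFlatModelAt p (fun (σ : GalQ) (P : Tors W p) => σ • P) := by
  obtain ⟨A, hA⟩ := Galois.exists_liesOverPrime (L := Qbar) hp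
  exact hasFlatModelAt_tors_of_mult_place W hΔ hp hp2 hA hd hc hv

end Fermat.Agent.ECFormal
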